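import Mathlib

/-!
# Project MW (height machine for S17, route H2): absolute values, adelic constants

* `Qb`, `GQ` : `ℚ̄` and its Galois group.
* `Plc` : the places of `ℚ` (`none` = the archimedean place).
* `AbsFam` : ONE absolute value of `ℚ̄` above every place of `ℚ`.
* `AdC` : adelic constants `κ_v ≥ 1`, `κ_v = 1` for almost all `v`.
* `kap a n` : `1` if `a` is nonarchimedean, `n` otherwise.
-/

set_option autoImplicit false

noncomputable section

namespace Fermat.Agent.MW

abbrev Qb : Type := AlgebraicClosure ℚ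

abbrev GQ : Type := Qb ≃ₐ[ℚ] Qb

/-- The places of `ℚ`; `none` is the archimedean place. -/
abbrev Plc : Type := Option Nat.Primes

/-- One absolute value of `ℚ̄` above every place of `ℚ`. -/
structure AbsFam where
  abv : Plc → AbsoluteValue Qb ℝ
  arch : ∀ x : ℚ, abv none (algebraMap ℚ Qb x) = |(x : ℝ)|
  padic : ∀ (p : Nat.Primes) (x : ℚ), abv (some p) (algebraMap ℚ Qb x) = (padicNorm p x : ℝ)
  nonarch : ∀ p : Nat.Primes, IsNonarchimedean (abv (some p))
  fin : ∀ x : Qb, x ≠ 0 → {v | abv v x ≠ 1}.Finite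

/-- Adelic constants. -/
structure AdC where
  c : Plc → ℝ
  one_le : ∀ v, 1 ≤ c v
  fin : {v | c v ≠ 1}.Finite

namespace AdC

/-- The total size `∑_v log κ_v`. -/
def tot (κ : AdC) : ℝ := ∑ᶠ v, Real.log (κ.c v)

instance : One AdC := ⟨⟨fun _ => 1, fun _ => le_rfl, by simp⟩⟩

instance : Mul AdC := ⟨fun κ κ' => ⟨fun v => κ.c v * κ'.c v,
  fun v => one_le_mul_of_one_le_of_one_le (κ.one_le v) (κ'.one_le v),
  (κ.fin.union κ'.fin).subset (by
    intro v hv
    by_contra hcon
    simp only [Set.mem_union, Set.mem_ofPred_eq, not_or, not_not] at hcon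
    exact hv (by rw [hcon.1, hcon.2, one_mul]))⟩⟩

@[simp] theorem one_c (v : Plc) : (1 : AdC).c v = 1 := rfl

@[simp] theorem mul_c (κ κ' : AdC) (v : Plc) : (κ * κ').c v = κ.c v * κ'.c v := rfl

theorem pos (κ : AdC) (v : Plc) : 0 < κ.c v := lt_of_lt_of_le one_pos (κ.one_le v)

end AdC

/-- `1` for a nonarchimedean absolute value, `n` otherwise. -/
def kap {K : Type*} [Field K] (a : AbsoluteValue K ℝ) (n : ℕ) : ℝ :=
  open Classical in if IsNonarchimedean a then 1 else (n : ℝ)

/-- The adelic constant which is `n` at the archimedean place and `1` elsewhere. -/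
def AdC.arch (n : ℕ) (hn : 1 ≤ n) : AdC where
  c v := if v = none then (n : ℝ) else 1
  one_le v := by
    split_ifs
    · exact_mod_cast hn
    · exact le_rfl
  fin := (Set.finite_singleton (none : Plc)).subset (by
    intro v hv
    by_contra hcon
    exact hv (if_neg hcon))

end Fermat.Agent.MW
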