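import Fermat.Agent.MW.Defs
import Fermat.Agent.S17.Glob.Defs

/-!
# MW: the top level contracts of route H2

`heightStmt_of_contracts` (file `MW/Formal/Main.lean`):
`InvStmt + SiegelStmt + TauLowerStmt + NorthcottStmt + MoveStmt ⟹ S17.HeightStmt S.ratPts`.
-/

set_option autoImplicit false

noncomputable section

namespace Fermat.Agent.MW

open AlgebraicCurve Fermat.Agent.Lib.RR

variable {F : Type*} [Field F] [Algebra Qb F] [IsFF Qb F] {S : Setup F} (Φ : Coord S) (A : AbsFam)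

/-- (GC1) `ψ` depends only on the class, up to `O(1)`. -/
def InvStmt : Prop :=
  ∀ e e' : ℕ, ∃ C : ℝ, ∀ Y Y' : Divisor Qb F, Good S e Y → Good S e' Y' → S.cls Y = S.cls Y' →
    |Φ.psi A Y - Φ.psi A Y'| ≤ C

/-- (GC2) Siegel's lemma in `L((d+e)∞ - Y)`. -/
def SiegelStmt : Prop :=
  ∀ e : ℕ, ∃ (d r : ℕ) (C : ℝ), 1 ≤ r ∧ ∀ Y : Divisor Qb F, Good S e Y →
    ∃ (d' : ℕ) (Z : Divisor Qb F), d' ≤ d ∧ Eff S d' Z ∧ S.cls Z = - S.cls Y ∧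
      (r : ℝ) * Φ.tau A Z ≤ Φ.psi A Y + C

/-- (GC3) `τ` is bounded below on effective divisors of bounded degree. -/
def TauLowerStmt : Prop :=
  ∀ d : ℕ, ∃ C : ℝ, ∀ (d' : ℕ) (Z : Divisor Qb F), d' ≤ d → Eff S d' Z → - C ≤ Φ.tau A Z

/-- (GC4) Northcott for `τ`. -/
def NorthcottStmt : Prop :=
  ∀ (d : ℕ) (B : ℝ), {Z : Divisor Qb F | ∃ d' ≤ d, Eff S d' Z ∧ Φ.tau A Z ≤ B}.Finite

/-- (GC5) the moving lemma. -/
def MoveStmt (S : Setup F) : Prop :=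
  ∃ e₀ : ℕ, ∀ e, e₀ ≤ e → ∀ x ∈ S.ratPts, ∀ T : Finset (Place Qb F),
    ∃ Y : Divisor Qb F, Good S e Y ∧ S.cls Y = x ∧ Disjoint Y.support T

end Fermat.Agent.MW
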