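import Fermat.Agent.MW.QAbs
import Fermat.Agent.Lib.PlaceEval
import Fermat.Prelude.Def_AlgebraicCurve_BaseChangeGalois

/-!
# Project MW (route H2 of S17): curve side definitions

Blueprint: reports 260, 268.  On top of `MW/Abs.lean` (`Qb`, `GQ`, `Plc`, `AbsFam`, `AdC`) and
`MW/Loc/Defs.lean` (`nrm`, `pair`, `vol`, `opn`).

* `Setup F` : a function field `F / ℚ̄` with a semilinear action of `GQ`, a fixed place `inf` and a fixed
  uniformiser `unif` at `inf`;
* `S.V n = L(n ∞)`, `S.W n Z = L(n ∞ - Z)`;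
* `Coord S` : rational bases `φ n` of all `V n`; `Φ.lin n a`, `Φ.cW n Z` (coordinates of `W n Z`),
  `Φ.X n Q` (evaluation vector of the place `Q`; leading coefficients if `Q = ∞`);
* local functions `NL`, `tauL`, `delL`, `lamL`, global `tauP`, `lamP`, `tau`, `Lam`, `beta`, `psi`;
* `S.cls D`, `S.ratPts`, `IsRat`, `Eff`, `Good`.
-/

set_option autoImplicit false

noncomputable section

namespace Fermat.Agent.MW

open AlgebraicCurve Fermat.Agent.Lib.RR Fermat.Agent.Lib.PlaceEval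

/-- sup norm of `x ∧ y`. -/
def wedge2 {K : Type*} [Field K] (a : AbsoluteValue K ℝ) {ι : Type*} (x y : ι → K) : ℝ :=
  ⨆ p : ι × ι, a (x p.1 * y p.2 - x p.2 * y p.1)

/-- A function field over `ℚ̄` with a model over `ℚ`, a rational place and a rational uniformiser. -/
structure Setup (F : Type*) [Field F] [Algebra Qb F] where
  ρ : GQ →* SemilinearAut Qb F
  base : ∀ (σ : GQ) (a : Qb), SemilinearAut.baseAut (ρ σ) a = σ a
  inf : Place Qb F
  inf_fixed : ∀ σ : GQ, ρ σ • inf = inf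
  span_fixed : Submodule.span Qb {f : F | ∀ σ : GQ, ρ σ • f = f} = ⊤
  unif : F
  unif_ord : inf.ord unif = 1
  unif_fixed : ∀ σ : GQ, ρ σ • unif = unif

variable {F : Type*} [Field F] [Algebra Qb F]

namespace Setup

variable (S : Setup F)

/-- `L(n ∞)`. -/
def V (n : ℕ) : Submodule Qb F := riemannRochSpace (Finsupp.single S.inf (n : ℤ))

/-- `L(n ∞ - Z)`. -/
def W (n : ℕ) (Z : Divisor Qb F) : Submodule Qb F :=
  riemannRochSpace (Finsupp.single S.inf (n : ℤ) - Z)

/-- the genus. -/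
def g (_S : Setup F) : ℕ := genusFF Qb F

/-- the rational points of the Jacobian. -/
def ratPts : AddSubgroup (Pic0 Qb F) where
  carrier := {x | ∀ σ : GQ, S.ρ σ • x = x}
  zero_mem' := fun σ => smul_zero _
  add_mem' := fun {x y} hx hy σ => by rw [smul_add, hx σ, hy σ]
  neg_mem' := fun {x} hx σ => by rw [smul_neg, hx σ]

/-- the reference degree used for the local functions. -/
def nref : ℕ := 3 * S.g + 3

end Setup

/-- Rational bases of all the spaces `V n`. -/
structure Coord (S : Setup F) where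
  M : ℕ → ℕ
  φ : ∀ n, Fin (M n) → F
  li : ∀ n, LinearIndependent Qb (φ n)
  span : ∀ n, Submodule.span Qb (Set.range (φ n)) = S.V n
  fixed : ∀ n i (σ : GQ), S.ρ σ • φ n i = φ n i

/-- the real number `deg D`. -/
def degR (D : Divisor Qb F) : ℝ := ((Divisor.degree D : ℤ) : ℝ)

/-- the finite part of the divisor of `f`. -/
def Setup.Zdiv [HasPrincipalDivisors Qb F] (S : Setup F) (f : F) : Divisor Qb F :=
  Finsupp.erase S.inf (divOf f)

section

variable [IsFF Qb F]

/-- The class of `D - deg(D) ∞` in `Pic⁰`. -/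
def Setup.cls (S : Setup F) (D : Divisor Qb F) : Pic0 Qb F :=
  Pic0.mk ⟨D - Finsupp.single S.inf (Divisor.degree D), by
    rw [Divisor.mem_degZero, map_sub, Divisor.degree_single,
      Fermat.Agent.GAL.RED.deg_eq_one S.inf]
    simp⟩

namespace Coord

variable {S : Setup F} (Φ : Coord S)

/-- the element of `V n` with coordinates `a`, as a linear map. -/
def lin (n : ℕ) : (Fin (Φ.M n) → Qb) →ₗ[Qb] F := Fintype.linearCombination Qb (Φ.φ n)

open Classical in
/-- the coordinates of an element of `V n` (`0` outside `V n`). -/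
def crd (n : ℕ) (f : F) : Fin (Φ.M n) → Qb :=
  if h : f ∈ Submodule.span Qb (Set.range (Φ.φ n)) then ⇑((Φ.li n).repr ⟨f, h⟩) else 0

/-- the structure constants of the multiplication `V n × V n' → V (n + n')`. -/
def sc (n n' : ℕ) (i : Fin (Φ.M n)) (j : Fin (Φ.M n')) : Fin (Φ.M (n + n')) → Qb :=
  Φ.crd (n + n') (Φ.φ n i * Φ.φ n' j)

open Classical in
/-- the structure constants as rational numbers. -/
def scQ (n n' : ℕ) (i : Fin (Φ.M n)) (j : Fin (Φ.M n')) (l : Fin (Φ.M (n + n'))) : ℚ :=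
  if h : ∃ q : ℚ, algebraMap ℚ Qb q = Φ.sc n n' i j l then h.choose else 0

/-- the multiplication `V n × V n' → V (n + n')` in coordinates. -/
def mul (n n' : ℕ) (a : Fin (Φ.M n) → Qb) (b : Fin (Φ.M n') → Qb) : Fin (Φ.M (n + n')) → Qb :=
  fun l => ∑ i, ∑ j, a i * b j * Φ.sc n n' i j l

/-- the coordinates of the subspace `W n Z` of `V n`. -/
def cW (n : ℕ) (Z : Divisor Qb F) : Submodule Qb (Fin (Φ.M n) → Qb) := (S.W n Z).comap (Φ.lin n)

open Classical in
/-- the evaluation vector of a place `Q` on `V n` (for `Q = ∞`: the coefficient of `unif ^ (-n)`). -/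
def X (n : ℕ) (Q : Place Qb F) : Fin (Φ.M n) → Qb := fun i =>
  if Q = S.inf then ev Q (S.unif ^ n * Φ.φ n i) else ev Q (Φ.φ n i)

variable (A : AbsFam)

/-- `‖X_n(Q)‖_v`. -/
def NL (n : ℕ) (v : Plc) (Q : Place Qb F) : ℝ := nrm (A.abv v) (Φ.X n Q)

/-- `O_v(Z, Q) = ‖ev_Q | W n Z‖_v`. -/
def OL (n : ℕ) (v : Plc) (Z : Divisor Qb F) (Q : Place Qb F) : ℝ :=
  opn (A.abv v) (Φ.cW n Z) (Φ.X n Q)

/-- local height relative to `∞`. -/
def tauL (v : Plc) (Q : Place Qb F) : ℝ := Real.log (Φ.NL A S.nref v Q) / S.nref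

/-- `δ_v(P, Q)` (symmetric). -/
def delL (v : Plc) (P Q : Place Qb F) : ℝ :=
  wedge2 (A.abv v) (Φ.X S.nref P) (Φ.X S.nref Q) / (Φ.NL A S.nref v P * Φ.NL A S.nref v Q)

/-- `λ_v(P, Q) = - log δ_v(P, Q)` (`0` for `P = Q`). -/
def lamL (v : Plc) (P Q : Place Qb F) : ℝ := - Real.log (Φ.delL A v P Q)

def tauP (Q : Place Qb F) : ℝ := ∑ᶠ v : Plc, Φ.tauL A v Q

def lamP (P Q : Place Qb F) : ℝ := ∑ᶠ v : Plc, Φ.lamL A v P Q

/-- `τ(Z)`, additive in `Z`. -/
def tau (Z : Divisor Qb F) : ℝ := Z.sum fun P a => (a : ℝ) * Φ.tauP A P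

/-- `Λ(Z, Y)`, bi-additive and symmetric. -/
def Lam (Z Y : Divisor Qb F) : ℝ :=
  Z.sum fun P a => Y.sum fun Q b => (a : ℝ) * (b : ℝ) * Φ.lamP A P Q

/-- `β(Z, Y) = deg(Y) τ(Z) + deg(Z) τ(Y) - Λ(Z, Y)`. -/
def beta (Z Y : Divisor Qb F) : ℝ := degR Y * Φ.tau A Z + degR Z * Φ.tau A Y - Φ.Lam A Z Y

/-- `ψ(Y) = (deg Y + g - 1) τ(Y) - Λ(Y, Y) / 2`. -/
def psi (Y : Divisor Qb F) : ℝ := (degR Y + S.g - 1) * Φ.tau A Y - Φ.Lam A Y Y / 2

end Coord

end

/-- rational divisors supported outside `∞`. -/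
structure IsRat (S : Setup F) (D : Divisor Qb F) : Prop where
  fixed : ∀ σ : GQ, S.ρ σ • D = D
  off : D S.inf = 0

/-- rational, effective, supported outside `∞`, of degree `e`. -/
structure Eff (S : Setup F) (e : ℕ) (Y : Divisor Qb F) : Prop extends IsRat S Y where
  nonneg : 0 ≤ Y
  deg : Divisor.degree Y = e

/-- rational, effective, reduced, supported outside `∞`, of degree `e`. -/
structure Good (S : Setup F) (e : ℕ) (Y : Divisor Qb F) : Prop extends Eff S e Y where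
  red : ∀ P, Y P ≤ 1

end Fermat.Agent.MW
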