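import Fermat.Agent.MW.QAbs
import Fermat.Agent.MW.Loc.Basic

/-!
# MW / GP : the adelic Nullstellensatz estimate (THE ENGINE)

`f, g_k, Ψ_l ∈ ℚ[z]`.  If `f` vanishes at every point `z ∈ ℚ̄^σ` with `Ψ_l(z) = 0`, `g_k(z) = 0`, then
`|f(z)|_v ^ e ≤ κ_v max_k |g_k(z)|_v` for all `v` and all `z` in the unit polydisc with `Ψ_l(z) = 0`.

Proof: Mathlib's `MvPolynomial.vanishingIdeal_zeroLocus_eq_radical` (with `k = ℚ`, `K = ℚ̄`) gives
`f ^ e = ∑ a_k g_k + ∑ b_l Ψ_l` with `a_k, b_l ∈ ℚ[z]`; bound `|a_k(z)|_v` by `abv_aeval_le`.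
-/

set_option autoImplicit false

namespace Fermat.Agent.MW

open MvPolynomial

variable {σ : Type*}

/-- `kap` is monotone (no lower bound needed for a successor). -/
theorem kap_le_kap_succ {K : Type*} [Field K] (a : AbsoluteValue K ℝ) (n : ℕ) :
    kap a n ≤ kap a (n + 1) := by
  unfold kap
  split_ifs
  · exact le_rfl
  · push_cast
    linarith

/-- A polynomial with rational coefficients is adelically bounded on the unit polydisc. -/
theorem abv_aeval_le (P : MvPolynomial σ ℚ) : ∃ c : AdC, ∀ (A : AbsFam) (v : Plc) (z : σ → Qb),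
    (∀ i, A.abv v (z i) ≤ 1) → A.abv v (aeval z P) ≤ c.c v := by
  refine ⟨AdC.arch (P.support.card + 1) (Nat.le_add_left 1 _) *
    AdC.prod P.support (fun m => AdC.ofRat (P.coeff m)), ?_⟩
  intro A v z hz
  rw [aeval_def, eval₂_eq, AdC.mul_c]
  have hc0 : 0 ≤ (AdC.prod P.support (fun m => AdC.ofRat (P.coeff m))).c v := (AdC.pos _ v).le
  have hterm : ∀ m ∈ P.support,
      A.abv v (algebraMap ℚ Qb (P.coeff m) * ∏ i ∈ m.support, z i ^ m i) ≤
        (AdC.prod P.support (fun m => AdC.ofRat (P.coeff m))).c v := by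
    intro m hm
    rw [map_mul, AbsFam.abv_rat, map_prod]
    have h1 : ∏ i ∈ m.support, A.abv v (z i ^ m i) ≤ 1 := by
      apply Finset.prod_le_one
      · intro i _
        exact (A.abv v).nonneg _
      · intro i _
        rw [map_pow]
        exact pow_le_one₀ ((A.abv v).nonneg _) (hz i)
    calc qabv v (P.coeff m) * ∏ i ∈ m.support, A.abv v (z i ^ m i)
        ≤ qabv v (P.coeff m) * 1 := mul_le_mul_of_nonneg_left h1 ((qabv v).nonneg _)
      _ = qabv v (P.coeff m) := mul_one _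
      _ ≤ (AdC.ofRat (P.coeff m)).c v := AdC.le_ofRat _ _
      _ ≤ _ := AdC.le_prod P.support (fun m => AdC.ofRat (P.coeff m)) hm v
  refine (abv_sum_le (A.abv v) P.support _ hc0 hterm).trans ?_
  exact mul_le_mul_of_nonneg_right
    ((kap_le_kap_succ _ _).trans (kap_le_arch A v _ (Nat.le_add_left 1 _))) hc0

/-- Finite families of polynomials. -/
theorem abv_aeval_le_fam {κ : Type*} [Finite κ] (P : κ → MvPolynomial σ ℚ) :
    ∃ c : AdC, ∀ (A : AbsFam) (v : Plc) (z : σ → Qb),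
      (∀ i, A.abv v (z i) ≤ 1) → ∀ k, A.abv v (aeval z (P k)) ≤ c.c v := by
  classical
  have := Fintype.ofFinite κ
  choose c hc using fun k => abv_aeval_le (P k)
  refine ⟨AdC.prod Finset.univ c, ?_⟩
  intro A v z hz k
  exact (hc k A v z hz).trans (AdC.le_prod Finset.univ c (Finset.mem_univ k) v)

/-- The algebraic input. -/
theorem exists_pow_eq_sum [Finite σ] {κ l : Type*} [Fintype κ] [Fintype l] (f : MvPolynomial σ ℚ)
    (g : κ → MvPolynomial σ ℚ) (Ψ : l → MvPolynomial σ ℚ)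
    (h : ∀ z : σ → Qb, (∀ j, aeval z (Ψ j) = 0) → (∀ k, aeval z (g k) = 0) → aeval z f = 0) :
    ∃ (e : ℕ) (a : κ → MvPolynomial σ ℚ) (b : l → MvPolynomial σ ℚ),
      f ^ e = ∑ k, a k * g k + ∑ j, b j * Ψ j := by
  set I : Ideal (MvPolynomial σ ℚ) := Ideal.span (Set.range g) ⊔ Ideal.span (Set.range Ψ) with hI
  have hmem : f ∈ vanishingIdeal ℚ (zeroLocus Qb I) := by
    rw [mem_vanishingIdeal_iff]
    intro z hz
    rw [mem_zeroLocus_iff] at hz
    apply h z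
    · intro j
      exact hz _ (Ideal.mem_sup_right (Ideal.subset_span ⟨j, rfl⟩))
    · intro k
      exact hz _ (Ideal.mem_sup_left (Ideal.subset_span ⟨k, rfl⟩))
  rw [vanishingIdeal_zeroLocus_eq_radical] at hmem
  obtain ⟨e, he⟩ := hmem
  obtain ⟨x, hx, y, hy, hxy⟩ := Submodule.mem_sup.1 he
  obtain ⟨a, ha⟩ := (Ideal.mem_span_range_iff_exists_fun).1 hx
  obtain ⟨b, hb⟩ := (Ideal.mem_span_range_iff_exists_fun).1 hy
  exact ⟨e, a, b, by rw [ha, hb, hxy]⟩

/-- **The adelic Nullstellensatz estimate.** -/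
theorem adelic_nullstellensatz [Finite σ] {κ l : Type*} [Fintype κ] [Fintype l]
    (f : MvPolynomial σ ℚ) (g : κ → MvPolynomial σ ℚ) (Ψ : l → MvPolynomial σ ℚ)
    (h : ∀ z : σ → Qb, (∀ j, aeval z (Ψ j) = 0) → (∀ k, aeval z (g k) = 0) → aeval z f = 0) :
    ∃ (e : ℕ) (c : AdC), ∀ (A : AbsFam) (v : Plc) (z : σ → Qb), (∀ i, A.abv v (z i) ≤ 1) →
      (∀ j, aeval z (Ψ j) = 0) → ∀ B : ℝ, (∀ k, A.abv v (aeval z (g k)) ≤ B) → 0 ≤ B →
        A.abv v (aeval z f) ^ e ≤ c.c v * B := by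
  obtain ⟨e, a, b, hab⟩ := exists_pow_eq_sum f g Ψ h
  obtain ⟨c, hc⟩ := abv_aeval_le_fam a
  refine ⟨e, AdC.arch (Fintype.card κ + 1) (Nat.le_add_left 1 _) * c, ?_⟩
  intro A v z hz hΨ B hB hB0
  have h1 : aeval z f ^ e = ∑ k, aeval z (a k) * aeval z (g k) := by
    have h2 := congrArg (aeval z) hab
    rw [map_pow, map_add, map_sum, map_sum] at h2
    rw [h2]
    have h3 : ∑ j, aeval z (b j * Ψ j) = 0 := by
      apply Finset.sum_eq_zero
      intro j _
      rw [map_mul, hΨ j, mul_zero]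
    rw [h3, add_zero]
    exact Finset.sum_congr rfl fun k _ => map_mul _ _ _
  rw [← map_pow, h1, AdC.mul_c]
  have hcB : 0 ≤ c.c v * B := mul_nonneg (c.pos v).le hB0
  have hterm : ∀ k ∈ (Finset.univ : Finset κ),
      A.abv v (aeval z (a k) * aeval z (g k)) ≤ c.c v * B := by
    intro k _
    rw [map_mul]
    exact mul_le_mul (hc A v z hz k) (hB k) ((A.abv v).nonneg _) (c.pos v).le
  refine (abv_sum_le (A.abv v) Finset.univ _ hcB hterm).trans ?_
  rw [mul_assoc]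
  exact mul_le_mul_of_nonneg_right
    ((kap_le_kap_succ _ _).trans (kap_le_arch A v _ (Nat.le_add_left 1 _))) hcB

/-- The case `f = 1`: polynomials without common zero are adelically bounded below. -/
theorem adelic_nullstellensatz_one [Finite σ] {κ l : Type*} [Fintype κ] [Fintype l]
    (g : κ → MvPolynomial σ ℚ) (Ψ : l → MvPolynomial σ ℚ)
    (h : ∀ z : σ → Qb, (∀ j, aeval z (Ψ j) = 0) → ∃ k, aeval z (g k) ≠ 0) :
    ∃ c : AdC, ∀ (A : AbsFam) (v : Plc) (z : σ → Qb), (∀ i, A.abv v (z i) ≤ 1) →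
      (∀ j, aeval z (Ψ j) = 0) → ∃ k, 1 ≤ c.c v * A.abv v (aeval z (g k)) := by
  obtain ⟨e, c, hc⟩ := adelic_nullstellensatz (1 : MvPolynomial σ ℚ) g Ψ (by
    intro z hΨ hg
    obtain ⟨k, hk⟩ := h z hΨ
    exact absurd (hg k) hk)
  refine ⟨c, ?_⟩
  intro A v z hz hΨ
  obtain ⟨k₀, -⟩ := h z hΨ
  have : Nonempty κ := ⟨k₀⟩
  obtain ⟨k, hk⟩ := Finite.exists_max (fun k => A.abv v (aeval z (g k)))
  refine ⟨k, ?_⟩
  have h1 := hc A v z hz hΨ _ hk ((A.abv v).nonneg _)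
  rwa [map_one, map_one, one_pow] at h1

end Fermat.Agent.MW
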