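import Fermat.Agent.MW.QAbs
import Fermat.Agent.MW.Loc.Vol
import Fermat.Agent.S17.GF.NorthcottQ

/-!
# MW / AV : heights of rational vectors and of rational frames (= Schmidt height of a rational subspace).
-/

set_option autoImplicit false

noncomputable section

namespace Fermat.Agent.MW

variable {ι : Type*} [Fintype ι] {r : ℕ}

/-- general lemma: the sup of finitely many elements, not all zero, is `1` for almost all `v`. -/
theorem Hgt_finite_iSup_ne_one {K P : Type*} [Field K] (a : P → AbsoluteValue K ℝ)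
    (hfin : ∀ x : K, x ≠ 0 → {v | a v x ≠ 1}.Finite) {κ : Type*} [Finite κ] (f : κ → K)
    (hf : ∃ k, f k ≠ 0) : {v | (⨆ k, a v (f k)) ≠ 1}.Finite := by
  classical
  have hU : (⋃ k : κ, {v | f k ≠ 0 ∧ a v (f k) ≠ 1}).Finite := by
    refine Set.finite_iUnion fun k => ?_
    by_cases hk : f k = 0
    · refine Set.finite_empty.subset ?_
      rintro v ⟨h, -⟩
      exact absurd hk h
    · exact (hfin _ hk).subset fun v hv => hv.2
  refine hU.subset ?_
  intro v hv
  by_contra hcon
  apply hv
  have h1 : ∀ k, f k ≠ 0 → a v (f k) = 1 := by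
    intro k hk
    by_contra h
    exact hcon (Set.mem_iUnion.mpr ⟨k, hk, h⟩)
  apply le_antisymm
  · refine Real.iSup_le (fun k => ?_) zero_le_one
    by_cases hk : f k = 0
    · rw [hk, map_zero]
      exact zero_le_one
    · exact (h1 k hk).le
  · obtain ⟨k, hk⟩ := hf
    rw [← h1 k hk]
    exact le_ciSup (f := fun k => a v (f k)) (Set.finite_range _).bddAbove k

theorem Hgt_support_log_subset {P : Type*} (g : P → ℝ) :
    (Function.support fun v => Real.log (g v)) ⊆ {v | g v ≠ 1} := by
  intro v hv hcon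
  apply hv
  show Real.log (g v) = 0
  rw [hcon, Real.log_one]

/-- For almost all `v` all the nonzero minors are units. -/
theorem finite_vol_ne_one {t : Fin r → ι → ℚ} (ht : LinearIndependent ℚ t) :
    {v | vol (qabv v) t ≠ 1}.Finite :=
  Hgt_finite_iSup_ne_one qabv (fun _ hx => finite_qabv_ne_one hx)
    (fun I : Fin r → ι => Matrix.det (Matrix.of fun i j => t i (I j)))
    (Vol.exists_minor_ne_zero ht)

theorem finite_support_log_vol {t : Fin r → ι → ℚ} (ht : LinearIndependent ℚ t) :
    (Function.support fun v => Real.log (vol (qabv v) t)).Finite :=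
  (finite_vol_ne_one ht).subset (Hgt_support_log_subset _)

theorem finite_nrm_ne_one {s : ι → ℚ} (hs : s ≠ 0) : {v | nrm (qabv v) s ≠ 1}.Finite :=
  Hgt_finite_iSup_ne_one qabv (fun _ hx => finite_qabv_ne_one hx) s (Function.ne_iff.mp hs)

theorem finite_support_log_nrm {s : ι → ℚ} (hs : s ≠ 0) :
    (Function.support fun v => Real.log (nrm (qabv v) s)).Finite :=
  (finite_nrm_ne_one hs).subset (Hgt_support_log_subset _)

/-- The same for vectors with coordinates in `ℚ̄` (uses `AbsFam.fin`). -/
theorem finite_nrm_ne_one' (A : AbsFam) {s : ι → Qb} (hs : s ≠ 0) :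
    {v | nrm (A.abv v) s ≠ 1}.Finite :=
  Hgt_finite_iSup_ne_one A.abv A.fin s (Function.ne_iff.mp hs)

theorem finite_vol_ne_one' (A : AbsFam) {t : Fin r → ι → Qb} (ht : LinearIndependent Qb t) :
    {v | vol (A.abv v) t ≠ 1}.Finite :=
  Hgt_finite_iSup_ne_one A.abv A.fin
    (fun I : Fin r → ι => Matrix.det (Matrix.of fun i j => t i (I j)))
    (Vol.exists_minor_ne_zero ht)

theorem Hgt_finite_support_log_qabv {x : ℚ} (hx : x ≠ 0) :
    (Function.support fun v => Real.log (qabv v x)).Finite := by
  refine (finite_qabv_ne_one hx).subset ?_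
  intro v hv hcon
  apply hv
  show Real.log (qabv v x) = 0
  rw [hcon, Real.log_one]

/-- Invariance under a change of basis (product formula). -/
theorem hvol_mulVec (P : Matrix (Fin r) (Fin r) ℚ) (hP : P.det ≠ 0) {t : Fin r → ι → ℚ}
    (ht : LinearIndependent ℚ t) : hvol (fun i => ∑ j, P i j • t j) = hvol t := by
  unfold hvol
  have h1 : (fun v : Plc => Real.log (vol (qabv v) fun i => ∑ j, P i j • t j)) =
      fun v => Real.log (qabv v P.det) + Real.log (vol (qabv v) t) := by
    funext v
    rw [vol_mulVec, Real.log_mul ((qabv v).pos hP).ne' (vol_pos (qabv v) ht).ne']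
  rw [h1, finsum_add_distrib (Hgt_finite_support_log_qabv hP) (finite_support_log_vol ht),
    sum_log_qabv hP, zero_add]

theorem hvol_eq_of_span_eq {t t' : Fin r → ι → ℚ} (ht : LinearIndependent ℚ t)
    (ht' : LinearIndependent ℚ t')
    (h : Submodule.span ℚ (Set.range t') = Submodule.span ℚ (Set.range t)) : hvol t' = hvol t := by
  obtain ⟨P, hP, hPt⟩ := exists_matrix_of_span_eq ht ht' h
  have h1 : t' = fun i => ∑ j, P i j • t j := funext hPt
  rw [h1, hvol_mulVec P hP ht]

theorem hgt_smul {c : ℚ} (hc : c ≠ 0) {s : ι → ℚ} (hs : s ≠ 0) : hgt (c • s) = hgt s := by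
  unfold hgt
  have h1 : (fun v : Plc => Real.log (nrm (qabv v) (c • s))) =
      fun v => Real.log (qabv v c) + Real.log (nrm (qabv v) s) := by
    funext v
    rw [nrm_smul, Real.log_mul ((qabv v).pos hc).ne' (nrm_pos (qabv v) hs).ne']
  rw [h1, finsum_add_distrib (Hgt_finite_support_log_qabv hc) (finite_support_log_nrm hs),
    sum_log_qabv hc, zero_add]

/-- For an integral vector the finite places contribute `≤ 0`. -/
theorem hgt_le_of_int {s : ι → ℚ} (hs : s ≠ 0) (hint : ∀ i, ∃ n : ℤ, s i = n) :
    hgt s ≤ Real.log (nrm (qabv none) s) := by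
  unfold hgt
  have h1 : ∑ᶠ v : Plc, (if v = none then Real.log (nrm (qabv none) s) else 0) =
      Real.log (nrm (qabv none) s) := by
    rw [finsum_eq_single _ (none : Plc) (fun v hv => if_neg hv), if_pos rfl]
  rw [← h1]
  refine finsum_le_finsum' (finite_support_log_nrm hs) ?_ ?_
  · refine (Set.finite_singleton (none : Plc)).subset ?_
    intro v hv
    by_contra hne
    exact hv (if_neg hne)
  · intro v
    match v with
    | none =>
      show Real.log (nrm (qabv none) s) ≤
        if (none : Plc) = none then Real.log (nrm (qabv none) s) else 0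
      rw [if_pos rfl]
    | some p =>
      show Real.log (nrm (qabv (some p)) s) ≤
        if (some p : Plc) = none then Real.log (nrm (qabv none) s) else 0
      rw [if_neg (Option.some_ne_none p)]
      apply Real.log_nonpos (nrm_nonneg _ _)
      refine nrm_le _ zero_le_one fun i => ?_
      obtain ⟨n, hn⟩ := hint i
      rw [hn]
      exact qabv_int_le_one p n

/-- `hgt s ≥ 0` (scale a coordinate to `1`). -/
theorem hgt_nonneg {s : ι → ℚ} (hs : s ≠ 0) : 0 ≤ hgt s := by
  obtain ⟨i₀, hi₀⟩ : ∃ i, s i ≠ 0 := by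
    by_contra hcon
    push Not at hcon
    exact hs (funext hcon)
  rw [← hgt_smul (inv_ne_zero hi₀) hs]
  unfold hgt
  refine finsum_nonneg fun v => Real.log_nonneg ?_
  have h1 := le_nrm (qabv v) ((s i₀)⁻¹ • s) i₀
  rwa [Pi.smul_apply, smul_eq_mul, inv_mul_cancel₀ hi₀, map_one] at h1

/-- Northcott for rational points of projective space, normalised form. -/
theorem finite_hgt_le (B : ℝ) (i₀ : ι) : {s : ι → ℚ | s i₀ = 1 ∧ hgt s ≤ B}.Finite := by
  have hfin := S17.GF.finite_rat_ht_le B
  refine (Set.Finite.pi (fun _ : ι => hfin)).subset ?_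
  rintro s ⟨hs1, hsB⟩ i -
  have hs0 : s ≠ 0 := by
    intro h0
    rw [h0] at hs1
    exact zero_ne_one hs1
  show ∑ᶠ v : S17.GF.PlQ, Real.log (max 1 (S17.GF.av v (algebraMap ℚ S17.GF.Kb (s i)))) ≤ B
  refine le_trans ?_ hsB
  unfold hgt
  have h1 : (fun v : S17.GF.PlQ => Real.log (max 1 (S17.GF.av v (algebraMap ℚ S17.GF.Kb (s i))))) =
      fun v : Plc => Real.log ((AdC.ofRat (s i)).c v) := by
    funext v
    rw [QAbs_av_eq]
    rfl
  rw [h1]
  refine finsum_le_finsum' (AdC.ofRat (s i)).support_log_finite (finite_support_log_nrm hs0) ?_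
  intro v
  apply Real.log_le_log ((AdC.ofRat (s i)).pos v)
  refine max_le ?_ (le_nrm (qabv v) s i)
  have h2 := le_nrm (qabv v) s i₀
  rwa [hs1, map_one] at h2

end Fermat.Agent.MW
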