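import Fermat.Agent.MW.Loc.Defs
import Fermat.Agent.S17.GF.Product
import Fermat.Agent.S17.GF.Integral

/-!
# MW / AV : the absolute values of `ℚ`, product formula, calculus of adelic constants.

* `qabv v : AbsoluteValue ℚ ℝ` the normalised absolute values of `ℚ`;
* every `A : AbsFam` restricts to `qabv` on `ℚ`;
* product formula; `AdC.ofRat x` (`κ_v = max 1 |x|_v`);
* `theAbsFam : AbsFam` (from `S17.GF.av`);
* summation of local estimates: `abs_finsum_sub_le`.
-/

set_option autoImplicit false

noncomputable section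

namespace Fermat.Agent.MW

/-- The normalised absolute values of `ℚ`. -/
def qabv : Plc → AbsoluteValue ℚ ℝ
  | none => Rat.AbsoluteValue.real
  | some p => haveI : Fact (p : ℕ).Prime := ⟨p.2⟩; Rat.AbsoluteValue.padic p

theorem qabv_none (x : ℚ) : qabv none x = |(x : ℝ)| := by
  show Rat.AbsoluteValue.real x = |(x : ℝ)|
  rw [Rat.AbsoluteValue.real_eq_abs, Rat.cast_abs]

theorem qabv_some (p : Nat.Primes) (x : ℚ) : qabv (some p) x = (padicNorm p x : ℝ) := rfl

theorem qabv_nonarch (p : Nat.Primes) : IsNonarchimedean (qabv (some p)) := by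
  intro x y
  have : Fact (p : ℕ).Prime := ⟨p.2⟩
  rw [qabv_some, qabv_some, qabv_some]
  exact_mod_cast padicNorm.nonarchimedean (p := (p : ℕ)) (q := x) (r := y)

theorem qabv_int_le_one (p : Nat.Primes) (n : ℤ) : qabv (some p) (n : ℚ) ≤ 1 := by
  have : Fact (p : ℕ).Prime := ⟨p.2⟩
  rw [qabv_some]
  exact_mod_cast padicNorm.of_int (p := (p : ℕ)) n

theorem AbsFam.abv_rat (A : AbsFam) (v : Plc) (x : ℚ) : A.abv v (algebraMap ℚ Qb x) = qabv v x := by
  match v with
  | none => rw [A.arch, qabv_none]
  | some p => rw [A.padic, qabv_some]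

theorem QAbs_av_eq (v : Plc) (x : ℚ) : S17.GF.av v (algebraMap ℚ Qb x) = qabv v x := by
  match v with
  | none => rw [S17.GF.av_none_rat, qabv_none]
  | some p => rw [S17.GF.av_some_rat, qabv_some]

theorem finite_qabv_ne_one {x : ℚ} (hx : x ≠ 0) : {v | qabv v x ≠ 1}.Finite := by
  refine (S17.GF.Product_Good_rat hx).1.subset ?_
  intro v hv
  have hv' : qabv v x ≠ 1 := hv
  show Real.log (S17.GF.av v (algebraMap ℚ Qb x)) ≠ 0
  rw [QAbs_av_eq]
  exact Real.log_ne_zero_of_pos_of_ne_one ((qabv v).pos hx) hv'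

/-- The product formula (see `S17.GF.sum_log_av_rat`). -/
theorem sum_log_qabv {x : ℚ} (hx : x ≠ 0) : ∑ᶠ v, Real.log (qabv v x) = 0 := by
  rw [← S17.GF.sum_log_av_rat hx]
  apply finsum_congr
  intro v
  rw [← QAbs_av_eq]

/-- The family of absolute values constructed by block GF. -/
def theAbsFam : AbsFam where
  abv := S17.GF.av
  arch := S17.GF.av_none_rat
  padic := S17.GF.av_some_rat
  nonarch := S17.GF.av_some_nonarch
  fin := fun x hx => (S17.GF.finite_avt_ne_one hx).subset fun v hv => ⟨1, by simpa using hv⟩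

/-- `κ_v = max 1 |x|_v`. -/
def AdC.ofRat (x : ℚ) : AdC where
  c v := max 1 (qabv v x)
  one_le _ := le_max_left _ _
  fin := by
    by_cases hx : x = 0
    · subst hx
      simp
    · refine (finite_qabv_ne_one hx).subset ?_
      intro v hv hcon
      apply hv
      show max 1 (qabv v x) = 1
      rw [hcon, max_self]

theorem AdC.le_ofRat (x : ℚ) (v : Plc) : qabv v x ≤ (AdC.ofRat x).c v := le_max_right _ _

/-- powers of adelic constants. -/
def AdC.npow (κ : AdC) (n : ℕ) : AdC where
  c v := κ.c v ^ n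
  one_le v := one_le_pow₀ (κ.one_le v)
  fin := κ.fin.subset (by
    intro v hv
    by_contra hcon
    simp only [Set.mem_ofPred_eq, not_not] at hcon
    exact hv (by rw [hcon, one_pow]))

/-- finite products of adelic constants. -/
def AdC.prod {α : Type*} (s : Finset α) (κ : α → AdC) : AdC where
  c v := ∏ i ∈ s, (κ i).c v
  one_le v := by
    simpa using Finset.prod_le_prod (s := s) (f := fun _ => (1 : ℝ))
      (g := fun i => (κ i).c v) (fun _ _ => zero_le_one) (fun i _ => (κ i).one_le v)
  fin := by
    have hfin : (⋃ i ∈ s, {v | (κ i).c v ≠ 1}).Finite :=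
      Set.Finite.biUnion (Finset.finite_toSet s) (fun i _ => (κ i).fin)
    refine hfin.subset ?_
    intro v hv
    by_contra hcon
    apply hv
    apply Finset.prod_eq_one
    intro i hi
    by_contra h
    apply hcon
    simp only [Set.mem_iUnion]
    exact ⟨i, hi, h⟩

theorem AdC.le_prod {α : Type*} (s : Finset α) (κ : α → AdC) {i : α} (hi : i ∈ s) (v : Plc) :
    (κ i).c v ≤ (AdC.prod s κ).c v := by
  classical
  show (κ i).c v ≤ ∏ j ∈ s, (κ j).c v
  rw [← Finset.mul_prod_erase s (fun j => (κ j).c v) hi]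
  exact le_mul_of_one_le_right ((κ i).pos v).le ((AdC.prod (s.erase i) κ).one_le v)

theorem AdC.support_log_finite (κ : AdC) :
    (Function.support fun v => Real.log (κ.c v)).Finite := by
  refine κ.fin.subset ?_
  intro v hv hcon
  apply hv
  show Real.log (κ.c v) = 0
  rw [hcon, Real.log_one]

theorem AdC.tot_nonneg (κ : AdC) : 0 ≤ κ.tot :=
  finsum_nonneg fun v => Real.log_nonneg (κ.one_le v)

theorem AdC.tot_mul (κ κ' : AdC) : (κ * κ').tot = κ.tot + κ'.tot := by
  unfold AdC.tot
  rw [← finsum_add_distrib κ.support_log_finite κ'.support_log_finite]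
  apply finsum_congr
  intro v
  rw [AdC.mul_c, Real.log_mul (κ.pos v).ne' (κ'.pos v).ne']

/-- `kap (qabv v) n ≤ (AdC.arch n hn).c v`. -/
theorem kap_qabv_le_arch (v : Plc) (n : ℕ) (hn : 1 ≤ n) : kap (qabv v) n ≤ (AdC.arch n hn).c v := by
  match v with
  | none =>
    show kap (qabv none) n ≤ if (none : Plc) = none then (n : ℝ) else 1
    rw [if_pos rfl]
    unfold kap
    split_ifs
    · exact_mod_cast hn
    · exact le_rfl
  | some p =>
    show kap (qabv (some p)) n ≤ if (some p : Plc) = none then (n : ℝ) else 1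
    rw [if_neg (by simp)]
    unfold kap
    rw [if_pos (qabv_nonarch p)]

/-- **Summation of local estimates.** -/
theorem abs_finsum_sub_le (κ : AdC) (f g : Plc → ℝ) (hf : (Function.support f).Finite)
    (hg : (Function.support g).Finite) (h : ∀ v, |f v - g v| ≤ Real.log (κ.c v)) :
    |∑ᶠ v, f v - ∑ᶠ v, g v| ≤ κ.tot := by
  have hfg : (Function.support fun v => f v - g v).Finite :=
    (hf.union hg).subset (Function.support_sub _ _)
  have hneg : (Function.support fun v => - Real.log (κ.c v)).Finite :=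
    κ.support_log_finite.subset (fun v hv h0 => hv (by simp only [h0, neg_zero]))
  rw [← finsum_sub_distrib hf hg, abs_le]
  constructor
  · unfold AdC.tot
    rw [← finsum_neg_distrib]
    exact finsum_le_finsum' hneg hfg (fun v => (abs_le.mp (h v)).1)
  · exact finsum_le_finsum' hfg κ.support_log_finite (fun v => (abs_le.mp (h v)).2)

/-- One sided version. -/
theorem finsum_le_add_tot (κ : AdC) (f g : Plc → ℝ) (hf : (Function.support f).Finite)
    (hg : (Function.support g).Finite) (h : ∀ v, f v ≤ g v + Real.log (κ.c v)) :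
    ∑ᶠ v, f v ≤ ∑ᶠ v, g v + κ.tot := by
  unfold AdC.tot
  rw [← finsum_add_distrib hg κ.support_log_finite]
  exact finsum_le_finsum' hf ((hg.union κ.support_log_finite).subset (Function.support_add _ _)) h

/-- If `f` is within `log κ_v` of a finitely supported function, it is finitely supported. -/
theorem finite_support_of_abs_sub_le (κ : AdC) (f g : Plc → ℝ) (hg : (Function.support g).Finite)
    (h : ∀ v, |f v - g v| ≤ Real.log (κ.c v)) : (Function.support f).Finite := by
  refine (hg.union κ.fin).subset ?_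
  intro v hv
  by_contra hcon
  rw [Set.mem_union, not_or] at hcon
  have h1 : g v = 0 := by
    by_contra h'
    exact hcon.1 h'
  have h2 : κ.c v = 1 := by
    by_contra h'
    exact hcon.2 h'
  have h3 := h v
  rw [h1, h2, Real.log_one, sub_zero] at h3
  exact hv (abs_eq_zero.mp (le_antisymm h3 (abs_nonneg _)))

section Compare

variable {ι : Type*} [Fintype ι]

/-- extension of scalars of vectors. -/
def toQb (x : ι → ℚ) : ι → Qb := fun i => algebraMap ℚ Qb (x i)

theorem nrm_toQb (A : AbsFam) (v : Plc) (x : ι → ℚ) : nrm (A.abv v) (toQb x) = nrm (qabv v) x := by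
  simp only [nrm, toQb, AbsFam.abv_rat]

theorem vol_toQb (A : AbsFam) (v : Plc) {r : ℕ} (t : Fin r → ι → ℚ) :
    vol (A.abv v) (fun i => toQb (t i)) = vol (qabv v) t := by
  unfold vol
  congr 1
  funext I
  rw [← AbsFam.abv_rat A v, RingHom.map_det]
  rfl

theorem linearIndependent_toQb {r : ℕ} {t : Fin r → ι → ℚ} (ht : LinearIndependent ℚ t) :
    LinearIndependent Qb (fun i => toQb (t i)) := by
  rw [Fintype.linearIndependent_iff] at ht ⊢
  intro g hg i
  rw [← Module.forall_dual_apply_eq_zero_iff ℚ (g i)]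
  intro φ
  refine ht (fun i => φ (g i)) ?_ i
  funext j
  have hj := congrFun hg j
  simp only [Finset.sum_apply, Pi.smul_apply, smul_eq_mul, Pi.zero_apply, toQb] at hj ⊢
  have h2 := congrArg φ hj
  rw [map_sum, map_zero] at h2
  rw [← h2]
  apply Finset.sum_congr rfl
  intro k _
  rw [mul_comm (g k), ← Algebra.smul_def, map_smul, smul_eq_mul, mul_comm]

end Compare

/-- logarithmic height of a rational vector. -/
def hgt {ι : Type*} [Fintype ι] (x : ι → ℚ) : ℝ := ∑ᶠ v : Plc, Real.log (nrm (qabv v) x)

/-- logarithmic height of a rational family (= height of the subspace it spans). -/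
def hvol {ι : Type*} [Fintype ι] {r : ℕ} (t : Fin r → ι → ℚ) : ℝ :=
  ∑ᶠ v : Plc, Real.log (vol (qabv v) t)

end Fermat.Agent.MW
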